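import Fermat.Agent.LT.T6.H288.IndexSpec

/-!
# Row LT, tower T6, sub-leaf T6.12g.6 `Hilbert90ModC` (helper555) -- OFF-MAIN

Spec: `Fermat/Agent/LT/T6/H288/IndexSpec.lean` (helper288@01ab6bb4c), registry row 967.

`hilbert90ModC_of555 : ResFaithfulC → Hilbert90ModC`.

Elementary proof, no residue field, no completeness:

* `dedekind555` (Dedekind independence modulo the maximal ideal, elementwise): if
  `v(s^m x - x) = 1` is solvable in the integers for `0 < m < l`, then for integral coefficients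
  `a j`, `j ∈ S ⊆ [0, l)`, one of which is a unit, there is an integer `θ` with
  `v(∑ a j s^j θ) = 1`  (induction on the number of unit coefficients);
* `β = ∑_{j<l} (N_j c)⁻¹ s^j θ` satisfies `s β - c β = c ((N_l c)⁻¹ - 1) θ`.
-/

set_option autoImplicit false

noncomputable section

namespace Fermat.Agent.LT.T6.H555

open Fermat.Agent.LT.T6 Fermat.Agent.LT.T6.H288

variable {k' : Type} [Field k'] [Valued k' Γ₀]

/-- Powers of a valuation-preserving automorphism preserve the valuation. -/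
theorem val_pow555 (s : k' ≃+* k') (hs : ∀ y : k', Valued.v (s y) = Valued.v y) (j : ℕ)
    (y : k') : Valued.v ((s ^ j) y) = Valued.v y := by
  induction j with
  | zero => rw [pow_zero, RingAut.one_apply]
  | succ n ih => rw [pow_succ', RingAut.mul_apply, hs, ih]

/-- Two distinct powers of `s` (exponents `< l`) are separated modulo the maximal ideal. -/
theorem sep555 (s : k' ≃+* k') (hs : ∀ y : k', Valued.v (s y) = Valued.v y) (l : ℕ)
    (hF : ∀ m : ℕ, 0 < m → m < l → ∃ x : k', Valued.v x ≤ 1 ∧ Valued.v ((s ^ m) x - x) = 1)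
    {j₀ j₁ : ℕ} (h₀ : j₀ < l) (h₁ : j₁ < l) (hne : j₀ ≠ j₁) :
    ∃ x : k', Valued.v x ≤ 1 ∧ Valued.v ((s ^ j₁) x - (s ^ j₀) x) = 1 := by
  rcases Nat.lt_or_gt_of_ne hne with h | h
  · obtain ⟨x, hx, hx1⟩ := hF (j₁ - j₀) (Nat.sub_pos_of_lt h) (by omega)
    refine ⟨x, hx, ?_⟩
    have e : (s ^ j₁) x - (s ^ j₀) x = (s ^ j₀) ((s ^ (j₁ - j₀)) x - x) := by
      rw [map_sub, ← RingAut.mul_apply, ← pow_add, Nat.add_sub_cancel' h.le]
    rw [e, val_pow555 s hs, hx1]
  · obtain ⟨x, hx, hx1⟩ := hF (j₀ - j₁) (Nat.sub_pos_of_lt h) (by omega)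
    refine ⟨x, hx, ?_⟩
    have e : (s ^ j₁) x - (s ^ j₀) x = -((s ^ j₁) ((s ^ (j₀ - j₁)) x - x)) := by
      rw [map_sub, ← RingAut.mul_apply, ← pow_add, Nat.add_sub_cancel' h.le]
      ring
    rw [e, Valuation.map_neg, val_pow555 s hs, hx1]

/-- A product of two elements `≤ 1` of `Γ₀` which is `1` has both factors `1`. -/
theorem eq_one_of_mul_eq_one555 {x y : Γ₀} (hx : x ≤ 1) (hy : y ≤ 1) (h : x * y = 1) :
    x = 1 ∧ y = 1 := by
  have h1 : (1 : Γ₀) ≤ x := by
    calc (1 : Γ₀) = x * y := h.symm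
      _ ≤ x := mul_le_of_le_one_right' hy
  have h2 : (1 : Γ₀) ≤ y := by
    calc (1 : Γ₀) = x * y := h.symm
      _ ≤ y := mul_le_of_le_one_left' hx
  exact ⟨le_antisymm hx h1, le_antisymm hy h2⟩

/-- An integral combination of integral elements is integral. -/
theorem val_sum_le555 (s : k' ≃+* k') (hs : ∀ y : k', Valued.v (s y) = Valued.v y)
    (S : Finset ℕ) (a : ℕ → k') (ha : ∀ j ∈ S, Valued.v (a j) ≤ 1) (θ : k')
    (hθ : Valued.v θ ≤ 1) : Valued.v (∑ j ∈ S, a j * (s ^ j) θ) ≤ 1 := by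
  refine Valuation.map_sum_le _ fun j hj => ?_
  rw [Valuation.map_mul, val_pow555 s hs]
  exact mul_le_one' (ha j hj) hθ

open Classical in
/-- **Dedekind independence modulo the maximal ideal** (elementwise form). -/
theorem dedekind555 (s : k' ≃+* k') (hs : ∀ y : k', Valued.v (s y) = Valued.v y) (l : ℕ)
    (hF : ∀ m : ℕ, 0 < m → m < l → ∃ x : k', Valued.v x ≤ 1 ∧ Valued.v ((s ^ m) x - x) = 1) :
    ∀ (n : ℕ) (S : Finset ℕ) (a : ℕ → k'), (∀ j ∈ S, j < l) →
      (∀ j ∈ S, Valued.v (a j) ≤ 1) →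
      (S.filter (fun j => Valued.v (a j) = 1)).card = n → 0 < n →
      ∃ θ : k', Valued.v θ ≤ 1 ∧ Valued.v (∑ j ∈ S, a j * (s ^ j) θ) = 1 := by
  intro n
  induction n using Nat.strong_induction_on with
  | _ n ih =>
    intro S a hS ha hcard hn
    have hne : (S.filter (fun j => Valued.v (a j) = 1)).Nonempty := by
      rw [← Finset.card_pos, hcard]; exact hn
    obtain ⟨j₀, hj₀⟩ := hne
    have hj₀S : j₀ ∈ S := (Finset.mem_filter.1 hj₀).1
    have hj₀u : Valued.v (a j₀) = 1 := (Finset.mem_filter.1 hj₀).2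
    by_cases h2 : ∃ j₁ ∈ S, Valued.v (a j₁) = 1 ∧ j₁ ≠ j₀
    · obtain ⟨j₁, hj₁S, hj₁u, hj₁ne⟩ := h2
      obtain ⟨x, hx, hx1⟩ := sep555 s hs l hF (hS j₀ hj₀S) (hS j₁ hj₁S) (Ne.symm hj₁ne)
      -- the new coefficients
      set a' : ℕ → k' := fun j => a j * ((s ^ j) x - (s ^ j₀) x) with ha'def
      have hdiff : ∀ j : ℕ, Valued.v ((s ^ j) x - (s ^ j₀) x) ≤ 1 := fun j =>
        Valuation.map_sub_le _ (by rw [val_pow555 s hs]; exact hx)
          (by rw [val_pow555 s hs]; exact hx)
      have ha' : ∀ j ∈ S, Valued.v (a' j) ≤ 1 := fun j hj => by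
        rw [ha'def]
        simp only
        rw [Valuation.map_mul]
        exact mul_le_one' (ha j hj) (hdiff j)
      have hsub : S.filter (fun j => Valued.v (a' j) = 1)
          ⊆ (S.filter (fun j => Valued.v (a j) = 1)).erase j₀ := by
        intro j hj
        obtain ⟨hjS, hju⟩ := Finset.mem_filter.1 hj
        rw [ha'def] at hju
        simp only at hju
        rw [Valuation.map_mul] at hju
        have h1 := (eq_one_of_mul_eq_one555 (ha j hjS) (hdiff j) hju).1
        refine Finset.mem_erase.2 ⟨?_, Finset.mem_filter.2 ⟨hjS, h1⟩⟩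
        rintro rfl
        have h0 := (eq_one_of_mul_eq_one555 (ha j hjS) (hdiff j) hju).2
        rw [sub_self, Valuation.map_zero] at h0
        exact zero_ne_one h0
      have hlt : (S.filter (fun j => Valued.v (a' j) = 1)).card < n := by
        calc (S.filter (fun j => Valued.v (a' j) = 1)).card
            ≤ ((S.filter (fun j => Valued.v (a j) = 1)).erase j₀).card :=
              Finset.card_le_card hsub
          _ < (S.filter (fun j => Valued.v (a j) = 1)).card :=
              Finset.card_erase_lt_of_mem hj₀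
          _ = n := hcard
      have hj₁' : j₁ ∈ S.filter (fun j => Valued.v (a' j) = 1) := by
        refine Finset.mem_filter.2 ⟨hj₁S, ?_⟩
        rw [ha'def]
        simp only
        rw [Valuation.map_mul, hj₁u, hx1, mul_one]
      have hpos : 0 < (S.filter (fun j => Valued.v (a' j) = 1)).card :=
        Finset.card_pos.2 ⟨j₁, hj₁'⟩
      obtain ⟨θ', hθ', hθ'1⟩ := ih _ hlt S a' hS ha' rfl hpos
      -- the identity
      have hid : ∑ j ∈ S, a' j * (s ^ j) θ'
          = ∑ j ∈ S, a j * (s ^ j) (x * θ') - (s ^ j₀) x * ∑ j ∈ S, a j * (s ^ j) θ' := by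
        rw [Finset.mul_sum, ← Finset.sum_sub_distrib]
        refine Finset.sum_congr rfl fun j _ => ?_
        rw [ha'def]
        simp only
        rw [map_mul]
        ring
      have hA : Valued.v (∑ j ∈ S, a j * (s ^ j) (x * θ')) ≤ 1 :=
        val_sum_le555 s hs S a ha (x * θ')
          (by rw [Valuation.map_mul]; exact mul_le_one' hx hθ')
      have hC : Valued.v (∑ j ∈ S, a j * (s ^ j) θ') ≤ 1 := val_sum_le555 s hs S a ha θ' hθ'
      have hB : Valued.v ((s ^ j₀) x) ≤ 1 := by rw [val_pow555 s hs]; exact hx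
      by_cases hA1 : Valued.v (∑ j ∈ S, a j * (s ^ j) (x * θ')) = 1
      · exact ⟨x * θ', by rw [Valuation.map_mul]; exact mul_le_one' hx hθ', hA1⟩
      · have hAlt : Valued.v (∑ j ∈ S, a j * (s ^ j) (x * θ')) < 1 := lt_of_le_of_ne hA hA1
        refine ⟨θ', hθ', ?_⟩
        rw [hid] at hθ'1
        have hBC : Valued.v ((s ^ j₀) x * ∑ j ∈ S, a j * (s ^ j) θ') = 1 := by
          by_contra hne1
          have hBCle : Valued.v ((s ^ j₀) x * ∑ j ∈ S, a j * (s ^ j) θ') ≤ 1 := by
            rw [Valuation.map_mul]; exact mul_le_one' hB hC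
          have hBClt := lt_of_le_of_ne hBCle hne1
          have := Valuation.map_sub_lt (Valued.v) hAlt hBClt
          rw [hθ'1] at this
          exact lt_irrefl _ this
        rw [Valuation.map_mul] at hBC
        exact (eq_one_of_mul_eq_one555 hB hC hBC).2
    · -- only one unit coefficient: `θ = 1`
      push Not at h2
      refine ⟨1, by rw [Valuation.map_one], ?_⟩
      have hrest : Valued.v (∑ j ∈ S.erase j₀, a j * (s ^ j) 1) < 1 := by
        refine Valuation.map_sum_lt _ one_ne_zero fun j hj => ?_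
        obtain ⟨hjne, hjS⟩ := Finset.mem_erase.1 hj
        rw [map_one, mul_one]
        exact lt_of_le_of_ne (ha j hjS) fun h1 => hjne (h2 j hjS h1)
      rw [← Finset.add_sum_erase S _ hj₀S, map_one, mul_one]
      have hlt : Valued.v (∑ j ∈ S.erase j₀, a j * (s ^ j) 1) < Valued.v (a j₀) := by
        rw [hj₀u]; exact hrest
      rw [Valuation.map_add_eq_of_lt_left _ hlt, hj₀u]

/-- The partial norms of a unit are units. -/
theorem val_fNorm555 (s : k' ≃+* k') (hs : ∀ y : k', Valued.v (s y) = Valued.v y) (c : k')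
    (hc : Valued.v c = 1) (n : ℕ) : Valued.v (fNorm s n c) = 1 := by
  induction n with
  | zero => simp [fNorm]
  | succ n ih => rw [fNorm, Valuation.map_mul, hs, ih, hc, mul_one]

omit [Valued k' Γ₀] in
/-- The cocycle relation of the coefficients `(N_j c)⁻¹`. -/
theorem coeff_step555 (s : k' ≃+* k') (c : k') (hc0 : c ≠ 0) (n : ℕ) :
    s ((fNorm s n c)⁻¹) = c * (fNorm s (n + 1) c)⁻¹ := by
  rw [fNorm, mul_inv, ← mul_assoc, mul_inv_cancel₀ hc0, one_mul, map_inv₀]

/-- **T6.12g.6 (Hilbert 90 modulo `ϖ^r`)** from residual faithfulness. -/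
theorem hilbert90ModC_of555 (hRF : ResFaithfulC) : Hilbert90ModC := by
  intro k k' _ _ _ _ q l i s hk hk' hext c r hc hN
  have hs : ∀ y : k', Valued.v (s y) = Valued.v y := hext.val_s
  have hF : ∀ m : ℕ, 0 < m → m < l →
      ∃ x : k', Valued.v x ≤ 1 ∧ Valued.v ((s ^ m) x - x) = 1 :=
    fun m hm hml => hRF k k' q l i s hk hk' hext m hm hml
  have hc0 : c ≠ 0 := by
    intro h0
    rw [h0, Valuation.map_zero] at hc
    exact zero_ne_one hc
  have hl : 0 < l := hext.cyc.pos
  classical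
  -- the coefficients
  set a : ℕ → k' := fun j => (fNorm s j c)⁻¹ with hadef
  have hau : ∀ j : ℕ, Valued.v (a j) = 1 := fun j => by
    rw [hadef]
    simp only
    rw [map_inv₀, val_fNorm555 s hs c hc, inv_one]
  have hfilter : (Finset.range l).filter (fun j => Valued.v (a j) = 1) = Finset.range l :=
    Finset.filter_true_of_mem fun j _ => hau j
  obtain ⟨θ, hθ, hβ⟩ := dedekind555 s hs l hF l (Finset.range l) a
    (fun j hj => Finset.mem_range.1 hj) (fun j _ => (hau j).le)
    (by rw [hfilter, Finset.card_range]) hl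
  refine ⟨∑ j ∈ Finset.range l, a j * (s ^ j) θ, hβ, ?_⟩
  -- `s β = c (β + (a l - 1) θ)`
  have hsβ : s (∑ j ∈ Finset.range l, a j * (s ^ j) θ)
      = c * ∑ j ∈ Finset.range l, a (j + 1) * (s ^ (j + 1)) θ := by
    rw [map_sum, Finset.mul_sum]
    refine Finset.sum_congr rfl fun j _ => ?_
    rw [map_mul, hadef]
    simp only
    rw [coeff_step555 s c hc0 j, pow_succ', RingAut.mul_apply]
    ring
  have hshift : ∑ j ∈ Finset.range l, a (j + 1) * (s ^ (j + 1)) θ
      = ∑ j ∈ Finset.range l, a j * (s ^ j) θ + a l * θ - θ := by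
    have h1 := Finset.sum_range_succ' (fun j => a j * (s ^ j) θ) l
    have h2 := Finset.sum_range_succ (fun j => a j * (s ^ j) θ) l
    have h0 : a 0 * (s ^ 0) θ = θ := by
      rw [hadef]
      simp [fNorm]
    have hl' : (s ^ l) θ = θ := hext.cyc.order θ
    rw [h2, hl'] at h1
    rw [h0] at h1
    rw [h1]
    ring
  have hkey : s (∑ j ∈ Finset.range l, a j * (s ^ j) θ)
      - c * ∑ j ∈ Finset.range l, a j * (s ^ j) θ = c * ((a l - 1) * θ) := by
    rw [hsβ, hshift]
    ring
  rw [hkey, Valuation.map_mul, Valuation.map_mul, hc, one_mul]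
  have hal : Valued.v (a l - 1) ≤ WithZero.exp (-(r : ℤ)) := by
    have hNu : Valued.v (fNorm s l c) = 1 := val_fNorm555 s hs c hc l
    have hN0 : fNorm s l c ≠ 0 := by
      intro h0
      rw [h0, Valuation.map_zero] at hNu
      exact zero_ne_one hNu
    have e : a l - 1 = -((fNorm s l c - 1) * (fNorm s l c)⁻¹) := by
      rw [hadef]
      simp only
      field_simp
      ring
    rw [e, Valuation.map_neg, Valuation.map_mul, map_inv₀, hNu, inv_one, mul_one]
    exact hN
  calc Valued.v (a l - 1) * Valued.v θ ≤ Valued.v (a l - 1) := mul_le_of_le_one_right' hθ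
    _ ≤ WithZero.exp (-(r : ℤ)) := hal

end Fermat.Agent.LT.T6.H555

end
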